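import Mathlib.Data.Nat.Choose.Lucas
import Mathlib.Data.Nat.Choose.Dvd
import Mathlib.Data.Nat.Digits.Defs
import Mathlib.FieldTheory.Finite.Basic
import Fermat.Agent.Root.SummaryJacobsthal

/-!
# Lucas's property and the congruences of Gessel

`aperyNum e n = ∑ C(n, k) ^ 2 C(n + k, k) ^ e`. Both congruences are read off from the blocks
`k = p j + i`, `i < p`, by Lucas's theorem, Ljunggren's and `∑ 1 / i ^ 2 ≡ 0 (mod p)`.
-/

set_option autoImplicit false
set_option linter.unusedSectionVars false

noncomputable section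

open Finset

namespace Fermat.Agent.AperyCongruence

/-- The term. -/
def aperyTerm (e n k : ℕ) : ℕ := n.choose k ^ 2 * (n + k).choose k ^ e

/-- `∑ C(n, k) ^ 2 C(n + k, k) ^ e`. -/
def aperyNum (e n : ℕ) : ℕ := ∑ k ∈ range (n + 1), aperyTerm e n k

theorem aperyNum_zero (e : ℕ) : aperyNum e 0 = 1 := by simp [aperyNum, aperyTerm]

theorem aperyNum_eq_sum (e : ℕ) {n M : ℕ} (h : n < M) :
    aperyNum e n = ∑ k ∈ range M, aperyTerm e n k := by
  refine sum_subset (range_subset_range.2 h) fun k _ hk => ?_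
  rw [mem_range, not_lt] at hk
  simp [aperyTerm, Nat.choose_eq_zero_of_lt (by omega : n < k)]

theorem sum_range_blocks {M : Type*} [AddCommMonoid M] (f : ℕ → M) (p m : ℕ) :
    ∑ k ∈ range (p * m), f k = ∑ j ∈ range m, ∑ i ∈ range p, f (p * j + i) := by
  induction m with
  | zero => simp
  | succ m ih => rw [Nat.mul_succ, sum_range_add, ih, sum_range_succ]

variable {p : ℕ} [hp : Fact p.Prime]

theorem choose_cast_block (n j : ℕ) {r i : ℕ} (hr : r < p) (hi : i < p) :
    (((p * n + r).choose (p * j + i) : ℕ) : ZMod p) = (r.choose i : ZMod p) * (n.choose j) := by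
  have h := (ZMod.natCast_eq_natCast_iff _ _ _).2 (Choose.choose_modEq_choose_mod_mul_choose_div_nat
    (n := p * n + r) (k := p * j + i) (p := p))
  rw [h, Nat.cast_mul, Nat.mul_add_mod, Nat.mul_add_mod, Nat.mod_eq_of_lt hr, Nat.mod_eq_of_lt hi,
    Nat.mul_add_div hp.out.pos, Nat.mul_add_div hp.out.pos, Nat.div_eq_of_lt hr,
    Nat.div_eq_of_lt hi, add_zero, add_zero]

theorem choose_add_cast_block (n j : ℕ) {r i : ℕ} (hr : r < p) (hi : i < p) :
    (((p * n + r + (p * j + i)).choose (p * j + i) : ℕ) : ZMod p) =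
      ((r + i).choose i : ZMod p) * ((n + j).choose j) := by
  rcases lt_or_ge (r + i) p with h | h
  · rw [show p * n + r + (p * j + i) = p * (n + j) + (r + i) by ring, choose_cast_block _ _ h hi]
  · have h0 : ((r + i).choose i : ZMod p) = 0 := by
      rw [ZMod.natCast_eq_zero_iff, add_comm]
      exact Nat.Prime.dvd_choose_add hp.out hi hr (by omega)
    obtain ⟨s, hs⟩ : ∃ s, r + i = p + s := ⟨r + i - p, by omega⟩
    rw [h0, zero_mul, show p * n + r + (p * j + i) = p * (n + j + 1) + s by
      rw [mul_add, mul_add, mul_one]; omega, choose_cast_block _ _ (by omega) hi,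
      Nat.choose_eq_zero_of_lt (by omega : s < i), Nat.cast_zero, zero_mul]

/-- **Lucas's property.** -/
theorem aperyNum_lucas (e n : ℕ) {r : ℕ} (hr : r < p) :
    (aperyNum e (p * n + r) : ZMod p) = aperyNum e n * aperyNum e r := by
  rw [aperyNum_eq_sum e (show p * n + r < p * (n + 1) by rw [mul_add, mul_one]; omega),
    aperyNum_eq_sum e (show r < p from hr), aperyNum, sum_range_blocks, Nat.cast_sum, Nat.cast_sum,
    Nat.cast_sum, sum_mul_sum]
  refine sum_congr rfl fun j _ => ?_
  rw [Nat.cast_sum]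
  refine sum_congr rfl fun i hi => ?_
  rw [mem_range] at hi
  simp only [aperyTerm, Nat.cast_mul, Nat.cast_pow, choose_cast_block n j hr hi,
    choose_add_cast_block n j hr hi]
  ring

/-- **Lucas's property along the digits.** -/
theorem aperyNum_digits (e n : ℕ) :
    (aperyNum e n : ZMod p) = ((Nat.digits p n).map fun d => (aperyNum e d : ZMod p)).prod := by
  induction n using Nat.strong_induction_on with
  | _ n ih =>
    rcases Nat.eq_zero_or_pos n with rfl | hn
    · simp [aperyNum_zero]
    rw [Nat.digits_def' hp.out.one_lt hn, List.map_cons, List.prod_cons,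
      ← ih (n / p) (Nat.div_lt_self hn hp.out.one_lt), mul_comm]
    conv_lhs => rw [← Nat.div_add_mod n p]
    exact aperyNum_lucas e _ (Nat.mod_lt _ hp.out.pos)

theorem sum_inv_sq (hp5 : 5 ≤ p) : ∑ i ∈ range p, ((i : ZMod p)⁻¹) ^ 2 = 0 := by
  have e : ∑ k ∈ range p, ((k : ZMod p)⁻¹) ^ 2 = ∑ x : ZMod p, (x⁻¹) ^ 2 := by
    refine sum_nbij' (fun k => (k : ZMod p)) ZMod.val (fun k _ => mem_univ _)
      (fun x _ => mem_range.2 (ZMod.val_lt x)) (fun k hk => ?_) (fun x _ => ?_) fun k _ => rfl
    · exact ZMod.val_natCast_of_lt (mem_range.1 hk)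
    · exact ZMod.natCast_zmod_val x
  rw [e]
  exact (Equiv.sum_comp (Equiv.inv (ZMod p)) fun x : ZMod p => x ^ 2).trans
    (FiniteField.sum_pow_lt_card_sub_one (K := ZMod p) 2 (by rw [ZMod.card]; omega))

/-- **Gessel's congruence.** -/
theorem aperyNum_mul (hp5 : 5 ≤ p) (e n : ℕ) :
    (p : ℤ) ^ 3 ∣ (aperyNum e (p * n) : ℤ) - (aperyNum e n : ℤ) := by
  rcases n with _ | m
  · simp
  set n := m + 1 with hn
  rw [aperyNum_eq_sum e (Nat.mul_lt_mul_of_pos_left (Nat.lt_succ_self n) hp.out.pos :
      p * n < p * (n + 1)), aperyNum, sum_range_blocks, Nat.cast_sum,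
    Nat.cast_sum, ← sum_sub_distrib]
  refine dvd_sum fun j _ => ?_
  obtain ⟨q, hq⟩ : ∃ q, p = q + 1 := ⟨p - 1, by omega⟩
  rw [hq, sum_range_succ', ← hq, add_zero, Nat.cast_add, add_sub_assoc]
  refine dvd_add ?_ ?_
  · -- `p ∤ k`
    have hc : ∀ i ∈ range q, ∃ c : ℕ, (p * n).choose (p * j + (i + 1)) = p * c ∧
        (c : ZMod p) = n * (-1) ^ i * (m.choose j) * ((i + 1 : ℕ) : ZMod p)⁻¹ := fun i hi => by
      rw [mem_range] at hi
      obtain ⟨M, hM⟩ : ∃ M, p * n = M + 1 := ⟨p * n - 1, by
        have := Nat.mul_pos hp.out.pos (show 0 < n by omega)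
        omega⟩
      have h := Nat.add_one_mul_choose_eq M (p * j + i)
      rw [← hM, add_assoc] at h
      have hnd : ¬ p ∣ p * j + (i + 1) := fun h' => by
        have := Nat.le_of_dvd (Nat.succ_pos i) ((Nat.dvd_add_right (dvd_mul_right p j)).1 h')
        omega
      have hdvd : p ∣ (p * n).choose (p * j + (i + 1)) :=
        ((Nat.Prime.dvd_mul hp.out).1 (h ▸ (dvd_mul_right p n).mul_right _)).resolve_right hnd
      obtain ⟨c, hc⟩ := hdvd
      refine ⟨c, hc, ?_⟩
      rw [hc, mul_assoc p n, mul_assoc p c] at h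
      have h' := congrArg (Nat.cast (R := ZMod p))
        (Nat.eq_of_mul_eq_mul_left hp.out.pos h)
      have hM' : M = p * m + q := by rw [hn, mul_add, mul_one] at hM; omega
      push_cast at h'
      rw [hM', choose_cast_block m j (by omega : q < p) (by omega : i < p), ZMod.natCast_self,
        zero_mul, zero_add] at h'
      have hqi : ∀ l, l ≤ q → (q.choose l : ZMod p) = (-1) ^ l := by
        intro l
        induction l with
        | zero => simp
        | succ l ih =>
          intro hl
          have h1 := congrArg (Nat.cast (R := ZMod p)) (Nat.choose_succ_right_eq q l)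
          rw [Nat.cast_mul, Nat.cast_mul, ih (by omega), Nat.cast_sub (by omega : l ≤ q)] at h1
          have hl' : ((l + 1 : ℕ) : ZMod p) ≠ 0 := by
            rw [Ne, ZMod.natCast_eq_zero_iff]
            exact Nat.not_dvd_of_pos_of_lt l.succ_pos (by omega)
          have hq' : (q : ZMod p) = -1 := by
            have := congrArg (Nat.cast (R := ZMod p)) hq
            rw [ZMod.natCast_self, Nat.cast_succ] at this
            linear_combination -this
          refine mul_right_cancel₀ hl' (h1.trans ?_)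
          rw [hq', Nat.cast_succ, pow_succ]
          ring
      rw [hqi i (by omega)] at h'
      rw [eq_mul_inv_iff_mul_eq₀ (by
        rw [Ne, ZMod.natCast_eq_zero_iff]
        exact Nat.not_dvd_of_pos_of_lt i.succ_pos (by omega))]
      push_cast
      linear_combination -h'
    choose! c hc hc' using hc
    rw [sum_congr rfl fun i hi => show aperyTerm e (p * n) (p * j + (i + 1)) =
      p ^ 2 * (c i ^ 2 * (p * n + (p * j + (i + 1))).choose (p * j + (i + 1)) ^ e) by
        rw [aperyTerm, hc i hi]; ring, ← mul_sum, Nat.cast_mul, Nat.cast_pow, pow_succ (p : ℤ) 2]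
    refine mul_dvd_mul_left _ (Int.natCast_dvd_natCast.2 ((ZMod.natCast_eq_zero_iff _ p).1 ?_))
    rw [Nat.cast_sum, sum_congr rfl fun i hi => show ((c i ^ 2 *
        (p * n + (p * j + (i + 1))).choose (p * j + (i + 1)) ^ e : ℕ) : ZMod p) =
      ((n : ZMod p) * m.choose j) ^ 2 * ((n + j).choose j : ZMod p) ^ e *
        (((i + 1 : ℕ) : ZMod p)⁻¹) ^ 2 by
      rw [mem_range] at hi
      have h := choose_add_cast_block n j (r := 0) hp.out.pos (by omega : i + 1 < p)
      rw [zero_add, Nat.choose_self, Nat.cast_one, one_mul, add_zero] at h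
      rw [Nat.cast_mul, Nat.cast_pow, Nat.cast_pow, h, hc' i (mem_range.2 hi)]
      have h2 : ((-1 : ZMod p) ^ i) ^ 2 = 1 := by rw [← pow_mul]; simp
      linear_combination ((n : ZMod p) * m.choose j * ((i + 1 : ℕ) : ZMod p)⁻¹) ^ 2 *
        ((n + j).choose j : ZMod p) ^ e * h2, ← mul_sum]
    have h0 := sum_inv_sq (p := p) hp5
    rw [show range p = range (q + 1) by rw [← hq]] at h0
    rw [sum_range_succ', Nat.cast_zero, inv_zero, zero_pow two_ne_zero, add_zero] at h0
    rw [h0, mul_zero]
  · -- `p ∣ k`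
    have h1 := FA.Summary.ljunggren p hp5 n j
    have h2 := FA.Summary.ljunggren p hp5 (n + j) j
    rw [mul_comm n, mul_comm j] at h1
    rw [add_mul, mul_comm n, mul_comm j] at h2
    exact_mod_cast Int.ModEq.dvd (Int.natCast_modEq_iff.2 ((h1.pow 2).mul (h2.pow e)).symm)

end Fermat.Agent.AperyCongruence

end
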