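import Fermat.Agent.AperyCongruence.Basic

/-!
# The Apéry numbers of index `p - 1`

In `ZMod (p ^ 2)` both binomial coefficients are linear in the harmonic sums.
-/

set_option autoImplicit false
set_option linter.unusedSectionVars false

noncomputable section

open Finset

namespace Fermat.Agent.AperyCongruence

variable {p : ℕ} [hp : Fact p.Prime]

local notation "R2" => ZMod (p ^ 2)

variable (p) in
/-- `1 / (i + 1)` modulo `p ^ 2`. -/
def invSucc (i : ℕ) : R2 := Ring.inverse ((i + 1 : ℕ) : R2)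

variable (p) in
/-- The harmonic sums modulo `p ^ 2`. -/
def harmSum (m : ℕ) : R2 := ∑ i ∈ range m, invSucc p i

theorem isUnit_succ {i : ℕ} (hi : i + 1 < p) : IsUnit ((i + 1 : ℕ) : R2) :=
  (ZMod.isUnit_iff_coprime _ _).2 (Nat.Coprime.pow_right 2 (Nat.Coprime.symm
    ((Nat.Prime.coprime_iff_not_dvd hp.out).2 (Nat.not_dvd_of_pos_of_lt i.succ_pos hi))))

theorem mul_invSucc {i : ℕ} (hi : i + 1 < p) : ((i + 1 : ℕ) : R2) * invSucc p i = 1 :=
  Ring.mul_inverse_cancel _ (isUnit_succ hi)

theorem prime_sq_eq_zero : (p : R2) * (p : R2) = 0 := by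
  rw [← Nat.cast_mul, ← pow_two, ZMod.natCast_self]

theorem prime_mul_eq_zero {x : R2} (h : ZMod.castHom (dvd_pow_self p two_ne_zero) (ZMod p) x = 0) :
    (p : R2) * x = 0 := by
  obtain ⟨z, rfl⟩ := ZMod.natCast_zmod_surjective x
  rw [map_natCast, ZMod.natCast_eq_zero_iff] at h
  obtain ⟨w, rfl⟩ := h
  rw [Nat.cast_mul, ← mul_assoc, prime_sq_eq_zero, zero_mul]

theorem isUnit_two (hp5 : 5 ≤ p) : IsUnit (2 : R2) := by
  have := isUnit_succ (p := p) (i := 1) (by omega)
  exact_mod_cast this

variable (hp5 : 5 ≤ p) {q : ℕ} (hq : p = q + 1)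
include hp5 hq

theorem prime_mul_sum_sq : (p : R2) * ∑ i ∈ range q, invSucc p i ^ 2 = 0 := by
  refine prime_mul_eq_zero ?_
  have e : ∀ i ∈ range q, ZMod.castHom (dvd_pow_self p two_ne_zero) (ZMod p) (invSucc p i ^ 2) =
      (((i + 1 : ℕ) : ZMod p)⁻¹) ^ 2 := fun i hi => by
    rw [mem_range] at hi
    have h := congrArg (ZMod.castHom (dvd_pow_self p two_ne_zero) (ZMod p))
      (mul_invSucc (p := p) (i := i) (by omega))
    rw [map_mul, map_natCast, map_one] at h
    rw [map_pow, eq_inv_of_mul_eq_one_right h]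
  rw [map_sum, sum_congr rfl e]
  have h0 := sum_inv_sq (p := p) hp5
  rw [show range p = range (q + 1) by rw [← hq], sum_range_succ', Nat.cast_zero, inv_zero,
    zero_pow two_ne_zero, add_zero] at h0
  exact h0

theorem harmSum_eq_zero : harmSum p q = 0 := by
  refine (isUnit_two hp5).mul_left_cancel ?_
  rw [mul_zero, two_mul]
  nth_rewrite 2 [harmSum]
  rw [← sum_range_reflect (fun i => invSucc p i) q, harmSum, ← sum_add_distrib]
  rw [sum_congr rfl fun i hi => show invSucc p i + invSucc p (q - 1 - i) =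
    -((p : R2) * invSucc p i ^ 2) by
    rw [mem_range] at hi
    have h1 := mul_invSucc (p := p) (i := i) (by omega)
    have h2 := mul_invSucc (p := p) (i := q - 1 - i) (by omega)
    have h3 : ((i + 1 : ℕ) : R2) + ((q - 1 - i + 1 : ℕ) : R2) = (p : R2) := by
      rw [← Nat.cast_add]
      exact congrArg _ (by omega)
    set a := ((i + 1 : ℕ) : R2)
    set b := ((q - 1 - i + 1 : ℕ) : R2)
    set A := invSucc p i
    set B := invSucc p (q - 1 - i)
    have hz : (p : R2) * (p : R2) = 0 := prime_sq_eq_zero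
    linear_combination -(A + (p : R2) * A ^ 2) * h2 -
      B * h1 + A * B * h3 + (p : R2) * A ^ 2 * B * h3 - (p : R2) * A * B * h1 + A ^ 2 * B * hz]
  rw [sum_neg_distrib, ← mul_sum, prime_mul_sum_sq hp5 hq, neg_zero]

theorem choose_pred_sq : ∀ {m : ℕ}, m ≤ q →
    ((q.choose m : R2)) ^ 2 = 1 - 2 * (p : R2) * harmSum p m := by
  intro m
  induction m with
  | zero => simp [harmSum]
  | succ m ih =>
    intro hm
    have h := congrArg (Nat.cast (R := R2)) (Nat.choose_succ_right_eq q m)
    rw [Nat.cast_mul, Nat.cast_mul, Nat.cast_sub (by omega : m ≤ q)] at h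
    have hI := mul_invSucc (p := p) (i := m) (by omega)
    have hqe : (q : R2) = (p : R2) - 1 := by
      rw [show (p : R2) = ((q + 1 : ℕ) : R2) by rw [← hq], Nat.cast_succ, add_sub_cancel_right]
    have e : (q.choose (m + 1) : R2) = -(1 - (p : R2) * invSucc p m) * q.choose m := by
      rw [hqe] at h
      push_cast at h hI
      linear_combination (invSucc p m) * h - ((q.choose (m + 1) : R2) + (q.choose m : R2)) * hI
    rw [e, mul_pow, ih (by omega), harmSum, harmSum, sum_range_succ]
    have hz : (p : R2) * (p : R2) = 0 := prime_sq_eq_zero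
    linear_combination (invSucc p m ^ 2 * (1 - 2 * (p : R2) * ∑ i ∈ range m, invSucc p i) +
      4 * invSucc p m * ∑ i ∈ range m, invSucc p i) * hz

theorem choose_prime_add : ∀ {m : ℕ}, m < p →
    ((p + m).choose m : R2) = 1 + (p : R2) * harmSum p m := by
  intro m
  induction m with
  | zero => simp [harmSum]
  | succ m ih =>
    intro hm
    have h := congrArg (Nat.cast (R := R2)) (Nat.add_one_mul_choose_eq (p + m) m)
    rw [Nat.cast_mul, Nat.cast_mul, ih (by omega), show p + m + 1 = p + (m + 1) by ring] at h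
    have hI := mul_invSucc (p := p) (i := m) hm
    rw [harmSum, sum_range_succ, ← harmSum]
    push_cast at h hI
    have hz : (p : R2) * (p : R2) = 0 := prime_sq_eq_zero
    linear_combination -invSucc p m * h +
      (1 + (p : R2) * harmSum p m - ((p + (m + 1)).choose (m + 1) : R2)) * hI +
      invSucc p m * harmSum p m * hz

/-- The term at `m + 1` is `p` times `d`. -/
theorem exists_term {m : ℕ} (hm : m < q) : ∃ d : ℕ, (q + (m + 1)).choose (m + 1) = p * d ∧
    (d : R2) = (1 + (p : R2) * harmSum p m) * invSucc p m := by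
  have h := Nat.choose_succ_right_eq (p + m) m
  rw [show p + m - m = p by omega] at h
  have hnd : ¬ p ∣ m + 1 := Nat.not_dvd_of_pos_of_lt m.succ_pos (by omega)
  obtain ⟨d, hd⟩ := ((Nat.Prime.dvd_mul hp.out).1
    (h ▸ dvd_mul_left p ((p + m).choose m))).resolve_right hnd
  refine ⟨d, by rw [show q + (m + 1) = p + m by omega, hd], ?_⟩
  rw [hd, mul_assoc, mul_comm ((p + m).choose m)] at h
  have h' := congrArg (Nat.cast (R := R2)) (Nat.eq_of_mul_eq_mul_left hp.out.pos h)
  rw [Nat.cast_mul, choose_prime_add hp5 hq (by omega : m < p)] at h'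
  have hI := mul_invSucc (p := p) (i := m) (by omega)
  linear_combination invSucc p m * h' - (d : R2) * hI

theorem aperyNum_pred_eq (e : ℕ) :
    aperyNum e q = 1 + ∑ m ∈ range q, q.choose (m + 1) ^ 2 * (q + (m + 1)).choose (m + 1) ^ e := by
  rw [aperyNum, sum_range_succ']
  simp [aperyTerm, add_comm]

/-- **The Apéry number of index `p - 1`.** -/
theorem aperyNum_pred : (p : ℤ) ^ 3 ∣ (aperyNum 1 q : ℤ) - 1 ∧
    (p : ℤ) ^ 3 ∣ (aperyNum 2 q : ℤ) - 1 := by
  choose! d hd hd' using fun m hm => exists_term (m := m) hp5 hq hm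
  have hz : (p : R2) * (p : R2) = 0 := prime_sq_eq_zero
  refine ⟨?_, ?_⟩
  · rw [aperyNum_pred_eq hp5 hq, Nat.cast_add, Nat.cast_one, add_sub_cancel_left,
      sum_congr rfl fun m hm => show q.choose (m + 1) ^ 2 * (q + (m + 1)).choose (m + 1) ^ 1 =
        p * (q.choose (m + 1) ^ 2 * d m) by rw [hd m (mem_range.1 hm)]; ring, ← mul_sum,
      Nat.cast_mul, pow_succ']
    refine mul_dvd_mul_left _ ?_
    rw [← Nat.cast_pow p 2]
    refine Int.natCast_dvd_natCast.2 ((ZMod.natCast_eq_zero_iff _ _).1 ?_)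
    have hX : ∀ n ≤ q, 2 * ∑ m ∈ range n, harmSum p m * invSucc p m +
        ∑ m ∈ range n, invSucc p m ^ 2 = harmSum p n ^ 2 := fun n hn => by
      induction n with
      | zero => simp [harmSum]
      | succ n ih =>
        rw [sum_range_succ, sum_range_succ, harmSum, harmSum, sum_range_succ, ← harmSum]
        linear_combination ih (by omega)
    have hS := prime_mul_sum_sq hp5 hq
    have hH := harmSum_eq_zero hp5 hq
    have hQ : (p : R2) * ∑ m ∈ range q, harmSum p m * invSucc p m = 0 :=
      (isUnit_two hp5).mul_left_cancel (by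
        linear_combination (p : R2) * hX q le_rfl - hS + (p : R2) * harmSum p q * hH)
    rw [Nat.cast_sum, sum_congr rfl fun m hm => show ((q.choose (m + 1) ^ 2 * d m : ℕ) : R2) =
        invSucc p m - (p : R2) * (harmSum p m * invSucc p m) - 2 * (p : R2) * invSucc p m ^ 2 by
      rw [mem_range] at hm
      rw [Nat.cast_mul, Nat.cast_pow, choose_pred_sq hp5 hq hm, hd' m hm,
        show harmSum p (m + 1) = harmSum p m + invSucc p m from sum_range_succ _ _]
      linear_combination (-2 * invSucc p m * harmSum p m * (harmSum p m + invSucc p m)) * hz,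
      sum_sub_distrib, sum_sub_distrib, ← mul_sum, ← mul_sum, hQ, mul_assoc, hS, mul_zero, sub_zero,
      sub_zero]
    exact hH
  · rw [aperyNum_pred_eq hp5 hq, Nat.cast_add, Nat.cast_one, add_sub_cancel_left,
      sum_congr rfl fun m hm => show q.choose (m + 1) ^ 2 * (q + (m + 1)).choose (m + 1) ^ 2 =
        p ^ 2 * (q.choose (m + 1) ^ 2 * d m ^ 2) by rw [hd m (mem_range.1 hm)]; ring, ← mul_sum,
      Nat.cast_mul, Nat.cast_pow, pow_succ (p : ℤ) 2]
    refine mul_dvd_mul_left _ (Int.natCast_dvd_natCast.2 ?_)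
    refine (Nat.mul_dvd_mul_iff_left hp.out.pos).1 ?_
    rw [← pow_two, ← ZMod.natCast_eq_zero_iff, Nat.cast_mul, Nat.cast_sum,
      sum_congr rfl fun m hm => show ((q.choose (m + 1) ^ 2 * d m ^ 2 : ℕ) : R2) =
        invSucc p m ^ 2 + (p : R2) * (2 * invSucc p m ^ 2 * harmSum p m -
          2 * invSucc p m ^ 2 * harmSum p (m + 1)) by
      rw [mem_range] at hm
      rw [Nat.cast_mul, Nat.cast_pow, Nat.cast_pow, choose_pred_sq hp5 hq hm, hd' m hm]
      linear_combination (invSucc p m ^ 2 * harmSum p m ^ 2 *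
        (1 - 2 * (p : R2) * harmSum p (m + 1)) -
          4 * invSucc p m ^ 2 * harmSum p (m + 1) * harmSum p m) * hz,
      sum_add_distrib, ← mul_sum, mul_add, prime_mul_sum_sq hp5 hq, zero_add, ← mul_assoc, hz,
      zero_mul]

end Fermat.Agent.AperyCongruence

end
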